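/-
S29lib / GH / Intertwine  (helper9)

Generic part of `TJ_galois`: a correspondence `ψ_* φ^*` on divisors / on `Pic⁰` commutes with a pair of
semilinear automorphisms `(g, g')` of `(F, F')` intertwined by both `φ` and `ψ`
(`SemilinearAut.IntertwinesAlong` of the prelude).
-/
import Mathlib
import Fermat.Prelude.Def_AlgebraicCurve_Correspondence

set_option autoImplicit false
set_option linter.style.haveILetI false

noncomputable section

namespace Fermat.Agent.S29lib.GH

open AlgebraicCurve AlgebraicCurve.SemilinearAut
open scoped Pointwise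

variable {K F F' : Type*} [Field K] [Field F] [Field F'] [Algebra K F] [Algebra K F']

section Places

variable (φ : F →ₐ[K] F') (hφ : φ.toRingHom.IsIntegral)
variable {g : SemilinearAut K F} {g' : SemilinearAut K F'}

theorem mem_restrictAlong_iff (w : Place K F') (f : F) :
    f ∈ (w.restrictAlong φ hφ).toValuationSubring ↔ φ f ∈ w.toValuationSubring :=
  Iff.rfl

theorem mem_smul_place_iff (g : SemilinearAut K F) (v : Place K F) (f : F) :
    f ∈ (g • v).toValuationSubring ↔ g⁻¹ • f ∈ v.toValuationSubring := by
  rw [smul_toValuationSubring]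
  exact ValuationSubring.mem_pointwise_smul_iff_inv_smul_mem

/-- restriction of places commutes with intertwined automorphisms -/
theorem restrictAlong_smul (h : IntertwinesAlong φ.toRingHom g g') (w : Place K F') :
    (g' • w).restrictAlong φ hφ = g • w.restrictAlong φ hφ := by
  apply Place.ext
  ext f
  rw [mem_restrictAlong_iff, mem_smul_place_iff, mem_smul_place_iff, mem_restrictAlong_iff]
  have := h.inv f
  rw [show (φ.toRingHom f) = φ f from rfl, show φ.toRingHom (g⁻¹ • f) = φ (g⁻¹ • f) from rfl] at this
  rw [this]

theorem ord_smul_map (h : IntertwinesAlong φ.toRingHom g g') (w : Place K F') (f : F) :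
    (g' • w).ord (φ (g • f)) = w.ord (φ f) := by
  have := h f
  rw [show (φ.toRingHom f) = φ f from rfl, show φ.toRingHom (g • f) = φ (g • f) from rfl] at this
  rw [← this, ord_smul]

/-- ramification indices are invariant under intertwined automorphisms -/
theorem ramificationIndexAlong_smul (h : IntertwinesAlong φ.toRingHom g g') (w : Place K F') :
    Place.ramificationIndexAlong φ (g' • w) = Place.ramificationIndexAlong φ w := by
  letI := algebraAlong φ
  show Place.ramificationIndex (F := F) (g' • w) = Place.ramificationIndex (F := F) w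
  unfold Place.ramificationIndex
  congr 1
  ext n
  simp only [Set.mem_ofPred_eq]
  constructor
  · rintro ⟨hn, f, hf, hfn⟩
    refine ⟨hn, g⁻¹ • f, ?_, ?_⟩
    · rwa [ne_eq, smul_eq_zero_iff_eq]
    · have := ord_smul_map φ h w (g⁻¹ • f)
      rw [smul_inv_smul] at this
      rw [← hfn]
      exact this.symm
  · rintro ⟨hn, f, hf, hfn⟩
    refine ⟨hn, g • f, ?_, ?_⟩
    · rwa [ne_eq, smul_eq_zero_iff_eq]
    · rw [← hfn]
      exact ord_smul_map φ h w f

/-- inertia degrees are invariant under intertwined automorphisms (when the residue degrees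
are finite) -/
theorem inertiaDegAlong_smul (h : IntertwinesAlong φ.toRingHom g g') (w : Place K F')
    (hdeg : (w.restrictAlong φ hφ).deg ≠ 0) :
    Place.inertiaDegAlong φ hφ (g' • w) = Place.inertiaDegAlong φ hφ w := by
  have h1 : ((g' • w).restrictAlong φ hφ).deg * Place.inertiaDegAlong φ hφ (g' • w) = (g' • w).deg := by
    letI := algebraAlong φ
    haveI := isScalarTower_along φ
    haveI := isIntegral_along φ hφ
    exact Place.deg_restrict_mul_inertiaDeg (F := F) (g' • w)
  have h2 : (w.restrictAlong φ hφ).deg * Place.inertiaDegAlong φ hφ w = w.deg := by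
    letI := algebraAlong φ
    haveI := isScalarTower_along φ
    haveI := isIntegral_along φ hφ
    exact Place.deg_restrict_mul_inertiaDeg (F := F) w
  rw [restrictAlong_smul φ hφ h, deg_smul, deg_smul, ← h2] at h1
  exact Nat.eq_of_mul_eq_mul_left (Nat.pos_of_ne_zero hdeg) h1

end Places

section Divisors

variable {g : SemilinearAut K F} {g' : SemilinearAut K F'}

/-- pull-back of divisors commutes with intertwined automorphisms -/
theorem pullbackAlong_smul [HasPrincipalDivisors K F'] (φ : F →ₐ[K] F')
    (hφ : φ.toRingHom.IsIntegral) (h : IntertwinesAlong φ.toRingHom g g') (D : Divisor K F) :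
    Divisor.pullbackAlong φ hφ (g • D) = g' • Divisor.pullbackAlong φ hφ D := by
  ext w
  rw [Divisor.pullbackAlong_apply, divisor_smul_apply, divisor_smul_apply,
    Divisor.pullbackAlong_apply, restrictAlong_smul φ hφ h.inv, ramificationIndexAlong_smul φ h.inv]

/-- push-forward of divisors commutes with intertwined automorphisms -/
theorem pushforwardAlong_smul (ψ : F →ₐ[K] F') (hψ : ψ.toRingHom.IsIntegral)
    (h : IntertwinesAlong ψ.toRingHom g g') (hdeg : ∀ v : Place K F, v.deg ≠ 0)
    (D : Divisor K F') :
    Divisor.pushforwardAlong ψ hψ (g' • D) = g • Divisor.pushforwardAlong ψ hψ D := by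
  induction D using Finsupp.induction_linear with
  | zero => rw [smul_zero, map_zero, smul_zero]
  | add D E hD hE => rw [smul_add, map_add, map_add, smul_add, hD, hE]
  | single w n =>
    rw [smul_single, Divisor.pushforwardAlong_single, Divisor.pushforwardAlong_single, smul_single,
      restrictAlong_smul ψ hψ h, inertiaDegAlong_smul ψ hψ h w (hdeg _)]

/-- **correspondences commute with intertwined automorphisms** (divisor level) -/
theorem correspondence_smul [HasPrincipalDivisors K F'] (φ ψ : F →ₐ[K] F')
    (hφ : φ.toRingHom.IsIntegral) (hψ : ψ.toRingHom.IsIntegral)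
    (h₁ : IntertwinesAlong φ.toRingHom g g') (h₂ : IntertwinesAlong ψ.toRingHom g g')
    (hdeg : ∀ v : Place K F, v.deg ≠ 0) (D : Divisor K F) :
    Divisor.correspondence φ ψ hφ hψ (g • D) = g • Divisor.correspondence φ ψ hφ hψ D := by
  rw [Divisor.correspondence_apply, Divisor.correspondence_apply, pullbackAlong_smul φ hφ h₁,
    pushforwardAlong_smul ψ hψ h₂ hdeg]

/-- **correspondences commute with intertwined automorphisms** (`Pic⁰` level) -/
theorem pic0_correspondence_smul [HasPrincipalDivisors K F'] (φ ψ : F →ₐ[K] F')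
    (hφ : φ.toRingHom.IsIntegral) (hψ : ψ.toRingHom.IsIntegral)
    (hFI : FundamentalIdentityAlong K φ hφ) (hfin : FiniteAlong K ψ)
    (hN : NormFormulaAlong K ψ hfin)
    (h₁ : IntertwinesAlong φ.toRingHom g g') (h₂ : IntertwinesAlong ψ.toRingHom g g')
    (hdeg : ∀ v : Place K F, v.deg ≠ 0) (x : Pic0 K F) :
    Pic0.correspondence φ ψ hφ hψ hFI hfin hN (g • x) =
      g • Pic0.correspondence φ ψ hφ hψ hFI hfin hN x := by
  obtain ⟨D, rfl⟩ := Pic0.mk_surjective x
  rw [pic0_smul_mk, Pic0.correspondence_mk, Pic0.correspondence_mk, pic0_smul_mk]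
  refine congrArg Pic0.mk (Subtype.ext ?_)
  rw [Pic0.coe_degZeroCorrespondence, coe_degZeroSMulHom, coe_degZeroSMulHom,
    Pic0.coe_degZeroCorrespondence]
  exact correspondence_smul φ ψ hφ hψ h₁ h₂ hdeg _

end Divisors

end Fermat.Agent.S29lib.GH
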