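/-
S29lib / GH / HeckeGalois  (helper9)

`TJ_galois` of `ComparisonData`: the Hecke operators on `J₀(N)(ℚ̄)` (the prelude's `heckeOperatorBar`,
helper1's `H.heckeStd`, `H.heckeTr`, `H.TJ`) commute with the action of `G_ℚ`.
Reason: the degeneracy maps `α` (inclusion) and `β` (`q ↦ q^ℓ`) commute with the coefficientwise
action of `G_ℚ` on Laurent series, so the pair `(arithmeticGalois N σ, arithmeticGalois (Nℓ) σ)` is
intertwined by both, and `GH.pic0_correspondence_smul` applies.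
-/
import Mathlib
import Fermat.Prelude.Thm_ModularCurve_coeffMap_qExpand
import Fermat.Agent.S29lib.GH.Intertwine
import Fermat.Agent.S29lib.H.TJ

set_option autoImplicit false
set_option linter.style.haveILetI false
set_option linter.unusedSectionVars false

noncomputable section

namespace Fermat.Agent.S29lib.GH

open AlgebraicCurve ModularCurve AlgebraicCurve.SemilinearAut
open Fermat.Agent.S37lib.HeckeInst

local notation "Qb" => AlgebraicClosure ℚ
local notation "GQ" => (AlgebraicClosure ℚ ≃ₐ[ℚ] AlgebraicClosure ℚ)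

/-- `σ ∈ G_ℚ` as a semilinear automorphism of the function field of `X₀(M)` over `ℚ̄` -/
abbrev galAutBar (M : ℕ) (σ : GQ) : SemilinearAut Qb (modularFunctionFieldBar M) :=
  arithmeticGalois (modularFunctionFieldFull M) σ

theorem galois_smul_eq (M : ℕ) (σ : GQ) (x : JZero M) : σ • x = galAutBar M σ • x := rfl

variable (N ℓ : ℕ) [NeZero N] [NeZero ℓ]

/-- `α` commutes with the coefficientwise Galois action -/
theorem intertwines_alpha (σ : GQ) :
    IntertwinesAlong (heckeAlphaBar Qb N ℓ).toRingHom (galAutBar N σ) (galAutBar (N * ℓ) σ) := by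
  intro x
  apply Subtype.ext
  show ((galAutBar (N * ℓ) σ • (heckeAlphaBar Qb N ℓ x) : modularFunctionFieldBar (N * ℓ)) :
      LaurentSeries Qb) =
    ((heckeAlphaBar Qb N ℓ (galAutBar N σ • x) : modularFunctionFieldBar (N * ℓ)) :
      LaurentSeries Qb)
  rw [coe_heckeAlphaBar, coe_arithmeticGalois_smul, coe_arithmeticGalois_smul, coe_heckeAlphaBar]

/-- `β` (`q ↦ q^ℓ`) commutes with the coefficientwise Galois action -/
theorem intertwines_beta (σ : GQ) :
    IntertwinesAlong (heckeBetaBar Qb N ℓ).toRingHom (galAutBar N σ) (galAutBar (N * ℓ) σ) := by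
  intro x
  apply Subtype.ext
  show ((galAutBar (N * ℓ) σ • (heckeBetaBar Qb N ℓ x) : modularFunctionFieldBar (N * ℓ)) :
      LaurentSeries Qb) =
    ((heckeBetaBar Qb N ℓ (galAutBar N σ • x) : modularFunctionFieldBar (N * ℓ)) :
      LaurentSeries Qb)
  rw [coe_heckeBetaBar, coe_arithmeticGalois_smul, coe_arithmeticGalois_smul, coe_heckeBetaBar,
    coeffMap_qExpand]

theorem deg_ne_zero_FB (M : ℕ) [NeZero M] (v : Place Qb (FB M)) : v.deg ≠ 0 := by
  rw [deg_eq_one M v]
  exact one_ne_zero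

/-- `α_* β^*` commutes with `G_ℚ` -/
theorem heckeStd_galois (σ : GQ) (x : JZero N) :
    H.heckeStd N ℓ (σ • x) = σ • H.heckeStd N ℓ x := by
  haveI := hasPrincipalDivisors_FB (N * ℓ)
  exact pic0_correspondence_smul (heckeBetaBar Qb N ℓ) (heckeAlphaBar Qb N ℓ)
    (heckeBetaBarIntegral N ℓ) (heckeAlphaBarIntegral N ℓ)
    (fundamentalIdentityAlong_beta N ℓ) (finiteAlong_alpha N ℓ) (normFormulaAlong_alpha N ℓ)
    (intertwines_beta N ℓ σ) (intertwines_alpha N ℓ σ) (deg_ne_zero_FB N) x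

/-- the transposed correspondence `β_* α^*` commutes with `G_ℚ` -/
theorem heckeTr_galois (σ : GQ) (x : JZero N) :
    H.heckeTr N ℓ (σ • x) = σ • H.heckeTr N ℓ x := by
  haveI := hasPrincipalDivisors_FB (N * ℓ)
  exact pic0_correspondence_smul (heckeAlphaBar Qb N ℓ) (heckeBetaBar Qb N ℓ)
    (heckeAlphaBarIntegral N ℓ) (heckeBetaBarIntegral N ℓ)
    (fundamentalIdentityAlong_alpha N ℓ) (finiteAlong_beta N ℓ) (normFormulaAlong_beta N ℓ)
    (intertwines_alpha N ℓ σ) (intertwines_beta N ℓ σ) (deg_ne_zero_FB N) x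

omit [NeZero ℓ] in
/-- **the prelude's Hecke operators commute with `G_ℚ`** -/
theorem heckeOperatorBar_galois (ℓ : Nat.Primes) (σ : GQ) (x : JZero N) :
    heckeOperatorBar N ℓ (σ • x) = σ • heckeOperatorBar N ℓ x := by
  haveI : NeZero (ℓ : ℕ) := ⟨ℓ.2.ne_zero⟩
  rw [H.heckeOperatorBar_eq_heckeStd, H.heckeOperatorBar_eq_heckeStd]
  exact heckeStd_galois N ℓ σ x

omit [NeZero ℓ] in
/-- **`ComparisonData.TJ_galois`** for helper1's `H.TJ` -/
theorem TJ_galois (ℓ : Nat.Primes) (σ : GQ) (x : JZero N) :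
    H.TJ N ℓ (σ • x) = σ • H.TJ N ℓ x := by
  haveI : NeZero (ℓ : ℕ) := ⟨ℓ.2.ne_zero⟩
  by_cases h : (ℓ : ℕ) ∣ N
  · rw [H.TJ_of_dvd N h]
    exact heckeTr_galois N ℓ σ x
  · rw [H.TJ_of_not_dvd N h]
    exact heckeStd_galois N ℓ σ x

end Fermat.Agent.S29lib.GH
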