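/-
S29lib / GH / Local  (helper9)

`LocalData.unram` and `LocalData.frob`, UNCONDITIONALLY: for `ℓ ∤ N n`, `A` a place of `ℚ̄` over `ℓ`,
* inertia at `A` acts trivially on `J₀(N)(ℚ̄)[n]`,
* every Frobenius element `σ` at `A` satisfies `σ² - T_ℓ σ + ℓ = 0` on `J₀(N)(ℚ̄)[n]`.
From the three inputs of S37 at `(ℓ, A)` (`Glue.inputs_of_supportData` + `ES.supportData`: good
reduction, equivariance of the reduction map, Eichler–Shimura on `Pic⁰` mod `ℓ`), S18 (injectivity of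
the reduction map on prime-to-`ℓ` torsion) and `GH.heckeOperatorBar_galois`.  No `hcomm`, no
`SMulCommClass` hypothesis.
-/
import Mathlib
import Fermat.Agent.S18
import Fermat.Agent.S37lib.Glue.Inputs
import Fermat.Agent.S37lib.ES.SupportMod
import Fermat.Agent.S29lib.Interface.Basic
import Fermat.Agent.S29lib.GH.HeckeGalois

set_option autoImplicit false
set_option linter.style.haveILetI false
set_option linter.unusedSectionVars false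

noncomputable section

namespace Fermat.Agent.S29lib.GH

open AlgebraicCurve ModularCurve
open Fermat.Agent.S37lib

local notation "Qb" => AlgebraicClosure ℚ
local notation "GQ" => (AlgebraicClosure ℚ ≃ₐ[ℚ] AlgebraicClosure ℚ)

variable (N : ℕ) [NeZero N]

/-- the three inputs of S37 at `(ℓ, A)`, unconditionally -/
theorem inputs (ℓ : ℕ) (hℓ : ℓ.Prime) (hℓN : ¬ ℓ ∣ N) (A : ValuationSubring Qb)
    (hA : A.LiesOverPrime ℓ) : Glue.Inputs N ℓ hℓ A :=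
  haveI : Fact ℓ.Prime := ⟨hℓ⟩
  Glue.inputs_of_supportData N ℓ hℓ A hℓN hA (ES.supportData N A hℓN hA _)

/-- S18 in the form used here: the reduction map at `A` is injective on `n`-torsion, `ℓ ∤ n` -/
theorem eq_zero_of_reduction_eq_zero (ℓ : ℕ) (hℓ : ℓ.Prime) (hℓN : ¬ ℓ ∣ N)
    (A : ValuationSubring Qb) (hA : A.LiesOverPrime ℓ) (n : ℕ) (hn : ¬ ℓ ∣ n)
    (z : JZero N) (hz : z ∈ Tors N n) (h0 : reductionModL A N z = 0) : z = 0 := by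
  haveI : Fact ℓ.Prime := ⟨hℓ⟩
  refine Fermat.Agent.S18.result N hℓN A hA (inputs N ℓ hℓ hℓN A hA).red n hn z ?_ h0
  rw [Submodule.mem_torsionBy_iff] at hz
  rw [← hz, natCast_zsmul]

/-- **unramified outside `N n`**: inertia at `ℓ ∤ N n` acts trivially on `J₀(N)(ℚ̄)[n]` -/
theorem unram_tors (n : ℕ) (ℓ : ℕ) (hℓ : ℓ.Prime) (hℓN : ¬ ℓ ∣ N) (hn : ¬ ℓ ∣ n)
    (A : ValuationSubring Qb) (hA : A.LiesOverPrime ℓ) (σ : GQ) (hσ : σ ∈ A.inertiaSubgroupIn ℚ)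
    (x : JZero N) (hx : x ∈ Tors N n) : σ • x = x := by
  obtain ⟨-, Fr, hinert, -, -⟩ := inputs N ℓ hℓ hℓN A hA
  have hmem : σ • x - x ∈ Tors N n := Submodule.sub_mem _ (smul_mem_Tors σ hx) hx
  have h0 : reductionModL A N (σ • x - x) = 0 := by
    rw [map_sub, hinert σ hσ x, sub_self]
  exact sub_eq_zero.mp (eq_zero_of_reduction_eq_zero N ℓ hℓ hℓN A hA n hn _ hmem h0)

/-- **Eichler–Shimura on torsion**: every Frobenius element at `ℓ ∤ N n` satisfies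
`σ² - T_ℓ σ + ℓ = 0` on `J₀(N)(ℚ̄)[n]` -/
theorem frob_tors (n : ℕ) (ℓ : ℕ) (hℓ : ℓ.Prime) (hℓN : ¬ ℓ ∣ N) (hn : ¬ ℓ ∣ n)
    (A : ValuationSubring Qb) (hA : A.LiesOverPrime ℓ) (σ : GQ) (hσ : A.IsFrobeniusAt σ ℓ)
    (x : JZero N) (hx : x ∈ Tors N n) :
    σ • σ • x - heckeOperatorBar N ⟨ℓ, hℓ⟩ (σ • x) + (ℓ : ℤ) • x = 0 := by
  obtain ⟨-, Fr, -, hfrob, hES⟩ := inputs N ℓ hℓ hℓN A hA
  have hT : heckeOperatorBar N ⟨ℓ, hℓ⟩ (σ • x) ∈ Tors N n :=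
    map_mem_Tors (heckeOperatorBar N ⟨ℓ, hℓ⟩ : JZero N →ₗ[ℤ] JZero N).toAddMonoidHom
      (smul_mem_Tors σ hx)
  have hmem : σ • σ • x - heckeOperatorBar N ⟨ℓ, hℓ⟩ (σ • x) + (ℓ : ℤ) • x ∈ Tors N n :=
    Submodule.add_mem _
      (Submodule.sub_mem _ (smul_mem_Tors σ (smul_mem_Tors σ hx)) hT)
      (Submodule.smul_mem _ _ hx)
  refine eq_zero_of_reduction_eq_zero N ℓ hℓ hℓN A hA n hn _ hmem ?_
  rw [map_add, map_sub, heckeOperatorBar_galois N ⟨ℓ, hℓ⟩ σ x, hfrob σ hσ, hfrob σ hσ,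
    hfrob σ hσ, hES x, map_zsmul, natCast_zsmul]
  abel

/-- the first two fields of `LocalData N p` -/
theorem localData_unram (p : ℕ) :
    ∀ ℓ : ℕ, ℓ.Prime → ¬ ℓ ∣ N * p →
      ∀ A : ValuationSubring Qb, A.LiesOverPrime ℓ → ∀ σ ∈ A.inertiaSubgroupIn ℚ,
        ∀ (k : ℕ) (x : JZero N), x ∈ Tors N (p ^ k) → σ • x = x := by
  intro ℓ hℓ hℓNp A hA σ hσ k x hx
  have hℓN : ¬ ℓ ∣ N := fun h => hℓNp (Dvd.dvd.mul_right h p)
  have hℓp : ¬ ℓ ∣ p ^ k := fun h => hℓNp (Dvd.dvd.mul_left (hℓ.dvd_of_dvd_pow h) N)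
  exact unram_tors N (p ^ k) ℓ hℓ hℓN hℓp A hA σ hσ x hx

theorem localData_frob (p : ℕ) :
    ∀ (ℓ : ℕ) (hℓ : ℓ.Prime), ¬ ℓ ∣ N * p →
      ∀ A : ValuationSubring Qb, A.LiesOverPrime ℓ → ∀ σ : GQ, A.IsFrobeniusAt σ ℓ →
        ∀ (k : ℕ) (x : JZero N), x ∈ Tors N (p ^ k) →
          σ • σ • x - heckeOperatorBar N ⟨ℓ, hℓ⟩ (σ • x) + (ℓ : ℤ) • x = 0 := by
  intro ℓ hℓ hℓNp A hA σ hσ k x hx
  have hℓN : ¬ ℓ ∣ N := fun h => hℓNp (Dvd.dvd.mul_right h p)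
  have hℓp : ¬ ℓ ∣ p ^ k := fun h => hℓNp (Dvd.dvd.mul_left (hℓ.dvd_of_dvd_pow h) N)
  exact frob_tors N (p ^ k) ℓ hℓ hℓN hℓp A hA σ hσ x hx

end Fermat.Agent.S29lib.GH
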