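/-
S29lib / GH / OpenStab  (helper9)

Open stabilisers: every element of `FBar M = ℚ̄ · F₀(M)`, every place and every divisor of `FBar M`, and
every class of `J₀(M)(ℚ̄)`, is fixed by `Gal(ℚ̄/L)` for some finite `L/ℚ` (`FiniteLevel`).  Consequence:
a finite Galois-stable set of classes (e.g. `Tors N (p^k)`, once known to be finite) is fixed
pointwise by some `Gal(ℚ̄/L)`: the field `LocalData.finiteLevel`.

Proof for a place `P`: take a uniformiser `f` of `P`; `σ` fixing the (finitely many) coefficients of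
`f` permutes the finite support of `div f`, and finitely many functions `h_Q ∈ P \ Q` separate `P`
from the other places `Q` of that support.
-/
import Mathlib
import Fermat.Agent.S29lib.Interface.Basic
import Fermat.Agent.S29lib.GH.HeckeGalois

set_option autoImplicit false
set_option linter.style.haveILetI false
set_option linter.unusedSectionVars false

noncomputable section

namespace Fermat.Agent.S29lib.GH

open AlgebraicCurve ModularCurve AlgebraicCurve.SemilinearAut IntermediateField
open Fermat.Agent.S37lib.HeckeInst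
open scoped Pointwise

local notation "Qb" => AlgebraicClosure ℚ
local notation "GQ" => (AlgebraicClosure ℚ ≃ₐ[ℚ] AlgebraicClosure ℚ)

/-- `S ⊆ G_ℚ` contains `Gal(ℚ̄/L)` for some finite `L/ℚ` -/
def FiniteLevel (S : Set GQ) : Prop :=
  ∃ L : IntermediateField ℚ Qb, FiniteDimensional ℚ L ∧ ∀ σ : GQ, (∀ y ∈ L, σ y = y) → σ ∈ S

theorem FiniteLevel.mono {S T : Set GQ} (h : FiniteLevel S) (hST : S ⊆ T) : FiniteLevel T := by
  obtain ⟨L, hL, h⟩ := h
  exact ⟨L, hL, fun σ hσ => hST (h σ hσ)⟩

theorem FiniteLevel.inter {S T : Set GQ} (hS : FiniteLevel S) (hT : FiniteLevel T) :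
    FiniteLevel (S ∩ T) := by
  obtain ⟨L₁, hL₁, h₁⟩ := hS
  obtain ⟨L₂, hL₂, h₂⟩ := hT
  refine ⟨L₁ ⊔ L₂, inferInstance, fun σ hσ => ⟨h₁ σ fun y hy => hσ y ?_, h₂ σ fun y hy => hσ y ?_⟩⟩
  · exact (le_sup_left : L₁ ≤ L₁ ⊔ L₂) hy
  · exact (le_sup_right : L₂ ≤ L₁ ⊔ L₂) hy

theorem finiteLevel_univ : FiniteLevel (Set.univ : Set GQ) :=
  ⟨⊥, inferInstance, fun σ _ => Set.mem_univ σ⟩

theorem finiteLevel_biInter {ι : Type*} (s : Finset ι) (S : ι → Set GQ)
    (h : ∀ i ∈ s, FiniteLevel (S i)) : FiniteLevel (⋂ i ∈ s, S i) := by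
  classical
  induction s using Finset.induction_on with
  | empty => simpa using finiteLevel_univ
  | insert a s _ ih =>
    rw [Finset.set_biInter_insert]
    exact (h a (Finset.mem_insert_self a s)).inter
      (ih fun i hi => h i (Finset.mem_insert_of_mem hi))

theorem finiteLevel_iInter {ι : Type*} [Finite ι] (S : ι → Set GQ)
    (h : ∀ i, FiniteLevel (S i)) : FiniteLevel (⋂ i, S i) := by
  classical
  haveI := Fintype.ofFinite ι
  have := finiteLevel_biInter (Finset.univ : Finset ι) S fun i _ => h i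
  simpa using this

/-- scalars -/
theorem finiteLevel_fix_scalar (a : Qb) : FiniteLevel {σ : GQ | σ a = a} := by
  have hQ : Algebra.IsAlgebraic ℚ Qb := AlgebraicClosure.isAlgebraic ℚ
  have ha : IsIntegral ℚ a := (hQ.isAlgebraic a).isIntegral
  exact ⟨ℚ⟮a⟯, IntermediateField.adjoin.finiteDimensional ha,
    fun σ hσ => hσ a (mem_adjoin_simple_self ℚ a)⟩

/-- Laurent series in `ℚ̄ · F₀` -/
theorem finiteLevel_fix_series {F₀ : IntermediateField ℚ (LaurentSeries ℚ)}
    {x : LaurentSeries Qb} (hx : x ∈ laurentBaseChange Qb F₀) :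
    FiniteLevel {σ : GQ | coeffMap (σ : Qb →+* Qb) x = x} := by
  rw [mem_laurentBaseChange_iff] at hx
  induction hx using Subfield.closure_induction with
  | mem y hy =>
      rcases hy with ⟨a, rfl⟩ | ⟨z, hz, rfl⟩
      · refine (finiteLevel_fix_scalar a).mono fun σ hσ => ?_
        show coeffMap (σ : Qb →+* Qb) (algebraMap Qb (LaurentSeries Qb) a) = _
        rw [coeffMap_algebraMap]
        exact congrArg _ hσ
      · exact finiteLevel_univ.mono fun σ _ => coeffMap_coeffEmb σ z
  | one => exact finiteLevel_univ.mono fun σ _ => map_one _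
  | add x y _ _ hx hy =>
      refine (hx.inter hy).mono fun σ hσ => ?_
      show coeffMap (σ : Qb →+* Qb) (x + y) = x + y
      rw [map_add, hσ.1, hσ.2]
  | neg x _ hx =>
      refine hx.mono fun σ hσ => ?_
      show coeffMap (σ : Qb →+* Qb) (-x) = -x
      rw [map_neg, hσ]
  | inv x _ hx =>
      refine hx.mono fun σ hσ => ?_
      show coeffMap (σ : Qb →+* Qb) x⁻¹ = x⁻¹
      rw [map_inv₀, hσ]
  | mul x y _ _ hx hy =>
      refine (hx.inter hy).mono fun σ hσ => ?_
      show coeffMap (σ : Qb →+* Qb) (x * y) = x * y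
      rw [map_mul, hσ.1, hσ.2]

variable (M : ℕ)

/-- elements of the function field `FBar M` -/
theorem finiteLevel_fix_elem (f : FB M) : FiniteLevel {σ : GQ | galAutBar M σ • f = f} := by
  refine (finiteLevel_fix_series f.2).mono fun σ hσ => ?_
  exact Subtype.ext hσ

variable [NeZero M]

/-- two distinct places are separated by a function -/
theorem exists_mem_not_mem_of_ne {P Q : Place Qb (FB M)} (h : Q ≠ P) :
    ∃ f : FB M, f ∈ P.toValuationSubring ∧ f ∉ Q.toValuationSubring := by
  by_contra hcon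
  push Not at hcon
  exact h (Place.ext (ValuationSubring.eq_of_le_of_ne_top _ hcon Q.ne_top')).symm

/-- **places of `FBar M` have open stabilisers** -/
theorem finiteLevel_fix_place (P : Place Qb (FB M)) :
    FiniteLevel {σ : GQ | galAutBar M σ • P = P} := by
  classical
  haveI := hasPrincipalDivisors_FB M
  obtain ⟨π, hπ⟩ := IsDiscreteValuationRing.exists_irreducible P.toValuationSubring
  have hf0 : (π : FB M) ≠ 0 := by
    simpa [ne_eq, ZeroMemClass.coe_eq_zero] using hπ.ne_zero
  have hord : P.ord (π : FB M) = 1 := P.ord_coe_irreducible hπ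
  obtain ⟨D, hD, -⟩ := HasPrincipalDivisors.exists_divisor (K := Qb) (π : FB M) hf0
  have hsep : ∀ Q : Place Qb (FB M), ∃ h : FB M, Q ≠ P →
      (h ∈ P.toValuationSubring ∧ h ∉ Q.toValuationSubring) := by
    intro Q
    by_cases hQ : Q = P
    · exact ⟨0, fun h => absurd hQ h⟩
    · obtain ⟨h, hh⟩ := exists_mem_not_mem_of_ne M hQ
      exact ⟨h, fun _ => hh⟩
  choose h hh using hsep
  have hS : FiniteLevel ({σ : GQ | galAutBar M σ • (π : FB M) = (π : FB M)} ∩
      ⋂ Q ∈ D.support, {σ : GQ | galAutBar M σ • h Q = h Q}) :=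
    (finiteLevel_fix_elem M _).inter
      (finiteLevel_biInter _ _ fun Q _ => finiteLevel_fix_elem M (h Q))
  refine hS.mono fun σ hσ => ?_
  obtain ⟨hσ1, hσ2⟩ := hσ
  simp only [Set.mem_iInter, Set.mem_ofPred_eq] at hσ1 hσ2
  show galAutBar M σ • P = P
  set g := galAutBar M σ with hg
  by_contra hne
  have hmem : g • P ∈ D.support := by
    rw [Finsupp.mem_support_iff, hD]
    have := SemilinearAut.ord_smul g P (π : FB M)
    rw [hσ1] at this
    rw [this, hord]
    exact one_ne_zero
  obtain ⟨h1, h2⟩ := hh (g • P) hne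
  apply h2
  have := ValuationSubring.smul_mem_pointwise_smul g (h (g • P)) P.toValuationSubring h1
  rw [hσ2 (g • P) hmem] at this
  exact this

/-- divisors of `FBar M` have open stabilisers -/
theorem finiteLevel_fix_divisor (D : Divisor Qb (FB M)) :
    FiniteLevel {σ : GQ | galAutBar M σ • D = D} := by
  have hS : FiniteLevel (⋂ P ∈ D.support, {σ : GQ | galAutBar M σ • P = P}) :=
    finiteLevel_biInter _ _ fun P _ => finiteLevel_fix_place M P
  refine hS.mono fun σ hσ => ?_
  simp only [Set.mem_iInter, Set.mem_ofPred_eq] at hσ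
  show galAutBar M σ • D = D
  rw [divisor_smul_def, Finsupp.mapDomain_congr (g := id) fun P hP => hσ P hP,
    Finsupp.mapDomain_id]

/-- **classes of `J₀(M)(ℚ̄)` have open stabilisers** -/
theorem finiteLevel_fix_class (x : JZero M) : FiniteLevel {σ : GQ | σ • x = x} := by
  obtain ⟨D, rfl⟩ := Pic0.mk_surjective x
  refine (finiteLevel_fix_divisor M (D : Divisor Qb (FB M))).mono fun σ hσ => ?_
  show galAutBar M σ • Pic0.mk D = Pic0.mk D
  rw [pic0_smul_mk]
  exact congrArg Pic0.mk (Subtype.ext hσ)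

/-- **`LocalData.finiteLevel`**, given finiteness of the torsion -/
theorem finiteLevel_tors (n : ℕ) (hfin : Finite (Tors M n)) :
    ∃ L : IntermediateField ℚ Qb, FiniteDimensional ℚ L ∧
      ∀ σ : GQ, (∀ y ∈ L, σ y = y) → ∀ x : JZero M, x ∈ Tors M n → σ • x = x := by
  have hS : FiniteLevel (⋂ x : Tors M n, {σ : GQ | σ • (x : JZero M) = x}) :=
    finiteLevel_iInter _ fun x => finiteLevel_fix_class M x
  obtain ⟨L, hL, h⟩ := hS
  refine ⟨L, hL, fun σ hσ x hx => ?_⟩
  have := h σ hσ
  simp only [Set.mem_iInter, Set.mem_ofPred_eq] at this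
  exact this ⟨x, hx⟩

end Fermat.Agent.S29lib.GH
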