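/-
S29lib / GH / LocalData  (helper9)

Block GH, assembled: `LocalData N p` (unramified outside `Np`, Frobenius quadratic, finite level) for
the torsion of `J₀(N)(ℚ̄)`.  The first two fields are unconditional (`GH/Local`); `finiteLevel` needs
the finiteness of `Tors N (p^k)` (`GH/OpenStab`), which is read off `ComparisonData.κ`.
-/
import Mathlib
import Fermat.Agent.S29lib.GH.Local
import Fermat.Agent.S29lib.GH.OpenStab

set_option autoImplicit false

noncomputable section

namespace Fermat.Agent.S29lib.GH

open ModularCurve

variable (N p : ℕ) [NeZero N]

/-- **`LocalData N p`** from the finiteness of the `p`-power torsion -/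
theorem localData_of_finite (hfin : ∀ k : ℕ, Finite (Tors N (p ^ k))) : LocalData N p where
  unram := localData_unram N p
  frob := localData_frob N p
  finiteLevel := fun k => finiteLevel_tors N (p ^ k) (hfin k)

variable {N p}

/-- the `p^k`-torsion is finite, by the Kummer comparison -/
theorem finite_tors_of_comparisonData (C : ComparisonData N p) (hp : p ≠ 0) (k : ℕ) :
    Finite (Tors N (p ^ k)) := by
  have : NeZero (p ^ k) := ⟨pow_ne_zero k hp⟩
  exact Finite.of_equiv _ (C.κ k).symm.toEquiv

/-- **`LocalData N p`** (block GH) -/
theorem localData_of_comparisonData (C : ComparisonData N p) (hp : p ≠ 0) : LocalData N p :=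
  localData_of_finite N p (finite_tors_of_comparisonData C hp)

end Fermat.Agent.S29lib.GH
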